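import Fermat.Agent.S56.GW.Seams
import Fermat.Agent.S55.Archimedean

/-!
# S56, node [GW-H2] (prefix `s56gwh_`)

`s56gwh_main : s56gw_H2_stmt`: `h²(G_S, M) ≤ dim Ш²_S(M) + Σ_{q ∈ S} h²(G_q, M)` for `p` odd.

`Ш²_S(M)` is by definition the kernel of the total localisation `locTotal₂S`, whose archimedean
component vanishes for `p` odd (`S55/Archimedean.lean`); so it is the kernel of the localisation
to the finite places of `S`, and rank-nullity gives the bound.
-/

set_option autoImplicit false

open CategoryTheory Module groupCohomology ExtCitation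

namespace Fermat.Agent.S56

local notation "GQ" => (AlgebraicClosure ℚ ≃ₐ[ℚ] AlgebraicClosure ℚ)

variable {p : ℕ} [Fact p.Prime]

/-- Abstract rank-nullity bound: a subspace `N` cut out by a finite family of linear maps has
codimension at most the sum of the dimensions of the targets. -/
theorem s56gwh_abs {K : Type*} [Field K] {V : Type*} [AddCommGroup V] [Module K V]
    [FiniteDimensional K V] {ι : Type*} [Fintype ι] (W : ι → Type*) [∀ i, AddCommGroup (W i)]
    [∀ i, Module K (W i)] [∀ i, FiniteDimensional K (W i)] (f : ∀ i, V →ₗ[K] W i)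
    (N : Submodule K V) (hN : ∀ x, x ∈ N ↔ ∀ i, f i x = 0) :
    finrank K V ≤ finrank K N + ∑ i, finrank K (W i) := by
  have hker : LinearMap.ker (LinearMap.pi f) = N := by
    ext x
    rw [hN, LinearMap.mem_ker]
    constructor
    · intro h i
      exact congrFun h i
    · intro h
      funext i
      exact h i
  have h1 := LinearMap.finrank_range_add_finrank_ker (LinearMap.pi f)
  have h2 : finrank K (LinearMap.range (LinearMap.pi f)) ≤ finrank K (∀ i, W i) :=
    Submodule.finrank_le _
  rw [Module.finrank_pi_fintype] at h2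
  rw [hker] at h1
  omega

/-- The inequality, without the (unused) hypotheses on `M`. -/
theorem s56gwh_bound (hp2 : p ≠ 2) (S : Finset Nat.Primes) (M : Rep.{0} (ZMod p) GQ)
    [FiniteDimensional (ZMod p) (continuousH2S S M)]
    (hfin : ∀ q ∈ S, FiniteDimensional (ZMod p)
      (continuousH2 (primeLocalToGlobal q) (s56gw_res M q))) :
    finrank (ZMod p) (continuousH2S S M)
      ≤ finrank (ZMod p) (sha₂ S M)
        + ∑ q ∈ S, finrank (ZMod p) (continuousH2 (primeLocalToGlobal q) (s56gw_res M q)) := by
  have : ∀ q : ↥S, FiniteDimensional (ZMod p)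
      (continuousH2 (primeLocalToGlobal q.1) (s56gw_res M q.1)) := fun q => hfin q.1 q.2
  have h := s56gwh_abs (K := ZMod p) (V := continuousH2S S M)
    (fun q : ↥S => continuousH2 (primeLocalToGlobal q.1) (s56gw_res M q.1))
    (fun q => locRes₂S S M (primeLocalToGlobal q.1)) (sha₂ S M)
    (Fermat.Agent.S55.tl_mem_sha₂_iff hp2 S M)
  rwa [Finset.sum_coe_sort S
    (fun q => finrank (ZMod p) (continuousH2 (primeLocalToGlobal q) (s56gw_res M q)))] at h

theorem s56gwh_main : s56gw_H2_stmt := by
  intro p _ hp2 S _ M _ _ _ hfin2 hfin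
  have := hfin2
  exact s56gwh_bound hp2 S M hfin

end Fermat.Agent.S56
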